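/-
S44, block X (owner helper132): NodeX from four sub-nodes.

  NodeRed  : the Gauss reduction of a function of level `M' p` lies in the function field of
             `X₀(M')` over the residue field
  NodeNP   : the reduction of `u₁` is not a `p`-th power                       (S33 node New)
  NodeDiv4 : tres ramifiee, or `p ∣ ord_w (ū₁)` at all places of level `4 M'`   (cover trick)
  NodeDesc : descent of `p ∣ ord` from level `4 M'` to level `M'`               (tame, `p ≥ 5`)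
-/
import Fermat.Agent.S44.Top

set_option autoImplicit false

noncomputable section

namespace Fermat.Agent.S44.X

open ModularCurve AlgebraicCurve Fermat.Agent.S24 Fermat.Agent.GAL

/-- The inclusion `k(X₀(M)) ⊆ k(X₀(M d))` (both inside `k((q))`). -/
def inclFk (A : ValuationSubring Qb) (M d : ℕ) [NeZero M] [NeZero d] :
    Fk A M →ₐ[kA A] Fk A (M * d) :=
  IntermediateField.inclusion (full_degeneracyC_le (kA A) (dvd_mul_right M d))

@[simp] theorem coe_inclFk (A : ValuationSubring Qb) (M d : ℕ) [NeZero M] [NeZero d]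
    (x : Fk A M) : ((inclFk A M d x : Fk A (M * d)) : LaurentSeries (kA A)) = x :=
  IntermediateField.coe_inclusion _ x

/-- **Node Red.** -/
def NodeRed : Prop :=
  ∀ (p : ℕ) [NeZero p] (M' : ℕ) [NeZero M'], p.Prime → ¬ p ∣ M' →
    ∀ A : ValuationSubring Qb, A.LiesOverPrime p →
      ∀ u : FN (M' * p), u ≠ 0 → ∃ ubar : Fk A M', IsRed A u (ubar : LaurentSeries (kA A))

/-- **Node NP.** -/
def NodeNP : Prop :=
  ∀ (P : FreyPackage) (M' : ℕ) [NeZero M'], Squarefree (M' * P.p) →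
    ∀ A : ValuationSubring Qb, A.LiesOverPrime P.p →
      ∀ (W : WeierstrassCurve ℤ) (u₀ u₁ : E.kum (M' * P.p) P.p), NewPair P M' A W u₀ u₁ →
        ∀ ubar : Fk A M', IsRed A (fn u₁) (ubar : LaurentSeries (kA A)) →
          ¬ ∃ y : Fk A M', ubar = y ^ P.p

/-- **Node Div4.** -/
def NodeDiv4 : Prop :=
  ∀ (P : FreyPackage) (M' : ℕ) [NeZero M'], Squarefree (M' * P.p) →
    ∀ A : ValuationSubring Qb, A.LiesOverPrime P.p →
      ∀ (W : WeierstrassCurve ℤ) (u₀ u₁ : E.kum (M' * P.p) P.p), NewPair P M' A W u₀ u₁ →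
        ∀ ubar : Fk A M', IsRed A (fn u₁) (ubar : LaurentSeries (kA A)) →
          TR A P.p (stabU A u₀ u₁) ∨
            ∀ w : Place (kA A) (Fk A (M' * 4)), (P.p : ℤ) ∣ w.ord (inclFk A M' 4 ubar)

/-- **Node Desc.** -/
def NodeDesc : Prop :=
  ∀ (p : ℕ) (M' : ℕ) [NeZero M'], p.Prime → 5 ≤ p → ¬ p ∣ M' →
    ∀ A : ValuationSubring Qb, A.LiesOverPrime p → ∀ f : Fk A M',
      (∀ w : Place (kA A) (Fk A (M' * 4)), (p : ℤ) ∣ w.ord (inclFk A M' 4 f)) →
        ∀ v : Place (kA A) (Fk A M'), (p : ℤ) ∣ v.ord f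

theorem nodeX_of (hR : NodeRed) (hNP : NodeNP) (hD4 : NodeDiv4) (hDe : NodeDesc) : NodeX := by
  intro P M' _ hsq A hA W u₀ u₁ hN
  have hpM : ¬ P.p ∣ M' := by
    rintro ⟨c, rfl⟩
    have h := Nat.squarefree_iff_prime_squarefree.mp hsq P.p P.pp
    exact h ⟨c, by ring⟩
  obtain ⟨ubar, hu⟩ := hR P.p M' P.pp hpM A hA (fn u₁) (u₁ : (FN (M' * P.p))ˣ).ne_zero
  rcases hD4 P M' hsq A hA W u₀ u₁ hN ubar hu with hT | hdiv
  · exact Or.inl hT
  · exact Or.inr ⟨ubar, hu, hDe P.p M' P.pp P.hp5 hpM A hA ubar hdiv,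
      hNP P M' hsq A hA W u₀ u₁ hN ubar hu⟩

end Fermat.Agent.S44.X

end
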