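/-
S44, block X (owner helper132): NodeDiv4 from NodeRed, NodeSlope (cover trick) and NodeEis.

`xU p M'` is the modular unit `x = G₄(τ) / G₄(p τ)` of level `4 M' p` (`x y = p` on the regular model);
its reduction `x̄` has simple zeros exactly at the supersingular points, and zeros/poles at cusps.
-/
import Fermat.Agent.S44.X.Top
import Fermat.Agent.Lib.EtaUnit.G4.Main
import Fermat.Agent.Lib.EtaUnit.Main

set_option autoImplicit false

noncomputable section

namespace Fermat.Agent.S44.X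

open ModularCurve AlgebraicCurve Fermat.Agent.S24 Fermat.Agent.GAL Fermat.Agent.Lib.EtaUnit

/-- `j` in the function field of `X₀(M)` over the residue field. -/
def jk (A : ValuationSubring Qb) (M : ℕ) : Fk A M :=
  ⟨jqModC (kA A), jqModC_mem_full (kA A) M⟩

/-- The modular unit `G₄(τ) / G₄(p τ)` of level `M' * 4 * p` (`p` odd). -/
def xU (p M' : ℕ) [NeZero p] [NeZero M'] (hp : Nat.Coprime p 4) : FN (M' * 4 * p) :=
  unitF isW1_G4 p (M' * 4 * p) hp ⟨M', by ring⟩

theorem coprime_four (P : FreyPackage) : Nat.Coprime P.p 4 := by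
  have h2 : Nat.Coprime P.p 2 := by
    rw [Nat.coprime_primes P.pp Nat.prime_two]
    have := P.hp5
    omega
  exact Nat.Coprime.pow_right 2 h2

/-- **Node Slope** (cover trick: COVER + PL + MODEL + SPLIT). -/
def NodeSlope : Prop :=
  ∀ (P : FreyPackage) (M' : ℕ) [NeZero M'], Squarefree (M' * P.p) →
    ∀ A : ValuationSubring Qb, A.LiesOverPrime P.p →
      ∀ (W : WeierstrassCurve ℤ) (u₀ u₁ : E.kum (M' * P.p) P.p), NewPair P M' A W u₀ u₁ →
        ∀ ubar : Fk A M', IsRed A (fn u₁) (ubar : LaurentSeries (kA A)) →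
        ∀ xbar : Fk A (M' * 4), IsRed A (xU P.p M' (coprime_four P)) (xbar : LaurentSeries (kA A)) →
          TR A P.p (stabU A u₀ u₁) ∨ ∃ c : ℤ,
            (∀ w : Place (kA A) (Fk A (M' * 4)), 0 ≤ w.ord (jk A (M' * 4)) →
              (P.p : ℤ) ∣ w.ord (inclFk A M' 4 ubar) - c * w.ord xbar) ∧
            (∀ w : Place (kA A) (Fk A (M' * 4)), w.ord (jk A (M' * 4)) < 0 →
              (P.p : ℤ) ∣ w.ord (inclFk A M' 4 ubar))

/-- **Node Eis** (a constant slope vector is Eisenstein). -/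
def NodeEis : Prop :=
  ∀ (P : FreyPackage) (M' : ℕ) [NeZero M'], Squarefree (M' * P.p) →
    ∀ A : ValuationSubring Qb, A.LiesOverPrime P.p →
      ∀ (W : WeierstrassCurve ℤ) (u₀ u₁ : E.kum (M' * P.p) P.p), NewPair P M' A W u₀ u₁ →
        ∀ ubar : Fk A M', IsRed A (fn u₁) (ubar : LaurentSeries (kA A)) →
        ∀ xbar : Fk A (M' * 4), IsRed A (xU P.p M' (coprime_four P)) (xbar : LaurentSeries (kA A)) →
          ∀ c : ℤ, (∀ w : Place (kA A) (Fk A (M' * 4)), 0 ≤ w.ord (jk A (M' * 4)) →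
              (P.p : ℤ) ∣ w.ord (inclFk A M' 4 ubar) - c * w.ord xbar) → (P.p : ℤ) ∣ c

theorem nodeDiv4_of (hR : NodeRed) (hS : NodeSlope) (hE : NodeEis) : NodeDiv4 := by
  intro P M' _ hsq A hA W u₀ u₁ hN ubar hu
  have hpM : ¬ P.p ∣ M' := by
    rintro ⟨c, rfl⟩
    have h := Nat.squarefree_iff_prime_squarefree.mp hsq P.p P.pp
    exact h ⟨c, by ring⟩
  have hpM4 : ¬ P.p ∣ M' * 4 := by
    intro h
    exact hpM ((coprime_four P).dvd_of_dvd_mul_right h)
  have hx0 : xU P.p M' (coprime_four P) ≠ 0 := unitF_ne_zero isW1_G4 _ _ _ _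
  obtain ⟨xbar, hx⟩ := hR P.p (M' * 4) P.pp hpM4 A hA _ hx0
  rcases hS P M' hsq A hA W u₀ u₁ hN ubar hu xbar hx with hT | ⟨c, h1, h2⟩
  · exact Or.inl hT
  · refine Or.inr fun w => ?_
    have hc := hE P M' hsq A hA W u₀ u₁ hN ubar hu xbar hx c h1
    rcases lt_or_ge (w.ord (jk A (M' * 4))) 0 with hw | hw
    · exact h2 w hw
    · have h3 := h1 w hw
      have h4 : (P.p : ℤ) ∣ c * w.ord xbar := Dvd.dvd.mul_right hc _
      have := dvd_add h3 h4
      simpa using this

end Fermat.Agent.S44.X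

end
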