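/-
S44, block X (owner helper132): NodeX from the two nodes which are still being proved
(`NodeSlope`: cover trick; `S33.Mid.NodeNew`), all the other nodes being landed:
`nodeRed` (helper43), `nodeDesc` (helper236), `nodeEisW_of` (helper103), `nodeNP_of` (helper93).
-/
import Fermat.Agent.S44.X.Red.Main
import Fermat.Agent.S44.X.Desc.Main
import Fermat.Agent.S44.X.Eis.Main
import Fermat.Agent.S44.X.NP.Main

set_option autoImplicit false

namespace Fermat.Agent.S44.X

theorem nodeX_of_slope (hS : NodeSlope)
    (hNew : ∀ (P : FreyPackage) (M' : ℕ) [NeZero M'], Squarefree (M' * P.p) →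
      S33.Mid.NodeNew M' P.p) : NodeX :=
  nodeX_of nodeRed (NP.nodeNP_of hNew) (Eis.nodeDiv4_of_weak nodeRed hS (Eis.nodeEisW_of nodeRed))
    Desc.nodeDesc

end Fermat.Agent.S44.X
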